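import Mathlib.NumberTheory.ModularForms.Derivative
import Mathlib.NumberTheory.ModularForms.QExpansion
import Mathlib.Analysis.Complex.HasPrimitives
import Mathlib.Analysis.Complex.RemovableSingularity

set_option autoImplicit false

open UpperHalfPlane hiding I
open ModularForm Derivative Complex Filter Topology
open scoped MatrixGroups ModularForm Manifold

namespace Fermat.Agent.S22_helper8

/-- Near a point of the open upper half plane, `G ∘ ofComplex` agrees with `Ψ ∘ qParam` when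
`G τ = Ψ (qParam h τ)`. -/
theorem comp_ofComplex_eventuallyEq (Ψ : ℂ → ℂ) (h : ℝ) {z : ℂ} (hz : 0 < z.im) :
    ((fun τ : ℍ => Ψ (Function.Periodic.qParam h τ)) ∘ ofComplex) =ᶠ[𝓝 z]
      fun w => Ψ (Function.Periodic.qParam h w) := by
  have hopen : IsOpen {w : ℂ | 0 < w.im} := isOpen_lt continuous_const Complex.continuous_im
  filter_upwards [hopen.mem_nhds hz] with w hw
  simp only [Function.comp_apply, ofComplex_apply_of_im_pos hw, UpperHalfPlane.coe_mk]

theorem hasDerivAt_qParam (h : ℝ) (z : ℂ) :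
    HasDerivAt (Function.Periodic.qParam h)
      (Function.Periodic.qParam h z * (2 * Real.pi * I / h)) z := by
  unfold Function.Periodic.qParam
  have h1 : HasDerivAt (fun w : ℂ => 2 * Real.pi * I * w / h) (2 * Real.pi * I / h) z := by
    have := ((hasDerivAt_id z).const_mul (2 * Real.pi * I)).div_const (h : ℂ)
    simpa using this
  exact h1.cexp

/-- If `Ψ` has derivative `Ψ'` at `qParam h z` and `0 < im z`, then `(Ψ ∘ qParam) ∘ ofComplex`
has the chain-rule derivative at `z`. -/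
theorem hasDerivAt_comp_qParam_ofComplex {Ψ : ℂ → ℂ} {Ψ' : ℂ} (h : ℝ) {z : ℂ} (hz : 0 < z.im)
    (hΨ : HasDerivAt Ψ Ψ' (Function.Periodic.qParam h z)) :
    HasDerivAt ((fun τ : ℍ => Ψ (Function.Periodic.qParam h τ)) ∘ ofComplex)
      (Ψ' * (Function.Periodic.qParam h z * (2 * Real.pi * I / h))) z :=
  (hΨ.comp z (hasDerivAt_qParam h z)).congr_of_eventuallyEq (comp_ofComplex_eventuallyEq Ψ h hz)

theorem periodic_comp_qParam_ofComplex (Ψ : ℂ → ℂ) {h : ℝ} (hh : h ≠ 0) :
    Function.Periodic ((fun τ : ℍ => Ψ (Function.Periodic.qParam h τ)) ∘ ofComplex) h := by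
  intro w
  by_cases hw : 0 < im w
  · have hw' : 0 < im (w + h) := by simp [hw]
    simp only [Function.comp_apply, ofComplex_apply_of_im_pos hw', ofComplex_apply_of_im_pos hw,
      UpperHalfPlane.coe_mk]
    congr 1
    unfold Function.Periodic.qParam
    have hh' : (h : ℂ) ≠ 0 := by exact_mod_cast hh
    have : 2 * (Real.pi : ℂ) * I * (w + h) / h = 2 * Real.pi * I * w / h + 2 * Real.pi * I := by
      field_simp
    rw [this, Complex.exp_add, Complex.exp_two_pi_mul_I, mul_one]
  · have hw0 : im w ≤ 0 := not_lt.mp hw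
    have hw' : im (w + h) ≤ 0 := by simpa using hw0
    simp [ofComplex_apply_of_im_nonpos hw', ofComplex_apply_of_im_nonpos hw0]

theorem exists_antideriv {φ : ℍ → ℂ} {h : ℝ} (hh : 0 < h) (hφ : MDiff φ)
    (hper : Function.Periodic (φ ∘ ofComplex) h) (hzero : IsZeroAtImInfty φ) :
    ∃ G : ℍ → ℂ, MDiff G ∧ Function.Periodic (G ∘ ofComplex) h ∧ IsZeroAtImInfty G ∧
      D G = φ := by
  have hbdd : IsBoundedAtImInfty φ := hzero.boundedAtFilter
  set Φ := cuspFunction h φ with hΦ
  have hΦdiff : DifferentiableOn ℂ Φ (Metric.ball 0 1) :=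
    differentiableOn_cuspFunction_ball hh hper hφ hbdd
  have hΦ0 : Φ 0 = 0 := hzero.cuspFunction_apply_zero hh
  have hball : Metric.ball (0 : ℂ) 1 ∈ 𝓝 (0 : ℂ) := Metric.ball_mem_nhds 0 one_pos
  have hψdiff : DifferentiableOn ℂ (fun q => (h : ℂ) • dslope Φ 0 q) (Metric.ball 0 1) :=
    ((Complex.differentiableOn_dslope hball).mpr hΦdiff).const_smul (h : ℂ)
  obtain ⟨Ψ, hΨ0, hΨ⟩ := hψdiff.isExactOn_ball.with_val_at 0 0
  have hqball : ∀ z : ℂ, 0 < z.im → Function.Periodic.qParam h z ∈ Metric.ball (0 : ℂ) 1 := by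
    intro z hz
    rw [mem_ball_zero_iff]
    exact Function.Periodic.norm_qParam_lt_one hh hz
  have hderiv : ∀ z : ℂ, 0 < z.im →
      HasDerivAt ((fun τ : ℍ => Ψ (Function.Periodic.qParam h τ)) ∘ ofComplex)
        (((h : ℂ) • dslope Φ 0 (Function.Periodic.qParam h z)) *
          (Function.Periodic.qParam h z * (2 * Real.pi * I / h))) z :=
    fun z hz => hasDerivAt_comp_qParam_ofComplex h hz (hΨ _ (hqball z hz))
  refine ⟨fun τ => Ψ (Function.Periodic.qParam h τ), ?_, ?_, ?_, ?_⟩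
  · rw [UpperHalfPlane.mdifferentiable_iff]
    intro z hz
    exact (hderiv z hz).differentiableAt.differentiableWithinAt
  · exact periodic_comp_qParam_ofComplex Ψ hh.ne'
  · have hcont : ContinuousAt Ψ 0 :=
      (hΨ 0 (Metric.mem_ball_self one_pos)).continuousAt
    have := hcont.tendsto.comp (qParam_tendsto_atImInfty hh)
    rw [hΨ0] at this
    exact this
  · funext τ
    have hτ : 0 < (τ : ℂ).im := τ.im_pos
    have hq0 : Function.Periodic.qParam h (τ : ℂ) ≠ 0 := Function.Periodic.qParam_ne_zero _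
    have hh' : (h : ℂ) ≠ 0 := by exact_mod_cast hh.ne'
    have hΦq : Φ (Function.Periodic.qParam h (τ : ℂ)) = φ τ := eq_cuspFunction τ hh.ne' hper
    unfold normalizedDerivOfComplex
    rw [(hderiv τ hτ).deriv, dslope_of_ne _ hq0, slope_def_field, hΦ0, hΦq]
    have hpi : (2 * (Real.pi : ℂ) * I) ≠ 0 := two_pi_I_ne_zero
    simp only [smul_eq_mul, sub_zero]
    field_simp


/-- A holomorphic function on `ℍ` killed by `D` is constant. -/
theorem exists_const_of_D_eq_zero {G : ℍ → ℂ} (hG : MDiff G) (h0 : D G = 0) :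
    ∃ c : ℂ, ∀ τ : ℍ, G τ = c := by
  have hdiff : DifferentiableOn ℂ (G ∘ ofComplex) upperHalfPlaneSet :=
    UpperHalfPlane.mdifferentiable_iff.mp hG
  have hderiv : Set.EqOn (deriv (G ∘ ofComplex)) 0 upperHalfPlaneSet := by
    intro z hz
    have := congrFun h0 ⟨z, hz⟩
    unfold normalizedDerivOfComplex at this
    rw [Pi.zero_apply] at this
    rcases mul_eq_zero.mp this with h | h
    · exact absurd (inv_eq_zero.mp h) two_pi_I_ne_zero
    · simpa using h
  obtain ⟨a, ha⟩ := isOpen_upperHalfPlaneSet.exists_is_const_of_deriv_eq_zero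
    (Complex.isConnected_of_upperHalfPlane subset_rfl (by grind)).isPreconnected hdiff hderiv
  refine ⟨a, fun τ => ?_⟩
  have := ha (τ : ℂ) τ.im_pos
  simpa using this

/-- A holomorphic function on `ℍ` killed by `D` and tending to zero at `i∞` vanishes. -/
theorem eq_zero_of_D_eq_zero {G : ℍ → ℂ} (hG : MDiff G) (h0 : D G = 0)
    (hzero : IsZeroAtImInfty G) : G = 0 := by
  obtain ⟨c, hc⟩ := exists_const_of_D_eq_zero hG h0
  have hGc : G = fun _ => c := funext hc
  have hlim : Tendsto G atImInfty (𝓝 c) := by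
    rw [hGc]; exact tendsto_const_nhds
  have : c = 0 := tendsto_nhds_unique hlim hzero
  rw [hGc, this]; rfl

/-- Uniqueness of the antiderivative vanishing at `i∞`. -/
theorem antideriv_unique {G₁ G₂ : ℍ → ℂ} (hG₁ : MDiff G₁) (hG₂ : MDiff G₂)
    (h₁ : IsZeroAtImInfty G₁) (h₂ : IsZeroAtImInfty G₂) (hD : D G₁ = D G₂) : G₁ = G₂ := by
  have hsub : D (G₁ - G₂) = 0 := by
    rw [normalizedDerivOfComplex_sub G₁ G₂ hG₁ hG₂, hD, sub_self]
  have hz : IsZeroAtImInfty (G₁ - G₂) := by
    have := Filter.Tendsto.sub h₁ h₂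
    rw [sub_zero] at this
    exact this
  have := eq_zero_of_D_eq_zero (hG₁.sub hG₂) hsub hz
  exact sub_eq_zero.mp this


/-- `D` preserves periodicity. -/
theorem D_periodic {G : ℍ → ℂ} {h : ℝ} (hper : Function.Periodic (G ∘ ofComplex) h) :
    Function.Periodic ((D G) ∘ ofComplex) h := by
  intro w
  by_cases hw : 0 < im w
  · have hw' : 0 < im (w + h) := by simp [hw]
    simp only [Function.comp_apply, ofComplex_apply_of_im_pos hw', ofComplex_apply_of_im_pos hw,
      normalizedDerivOfComplex, UpperHalfPlane.coe_mk]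
    congr 1
    have hfun : (fun x : ℂ => (G ∘ ofComplex) (x + h)) = G ∘ ofComplex := funext hper
    have := deriv_comp_add_const (G ∘ ofComplex) (h : ℂ) w
    rw [hfun] at this
    exact this.symm
  · have hw0 : im w ≤ 0 := not_lt.mp hw
    have hw' : im (w + h) ≤ 0 := by simpa using hw0
    simp [ofComplex_apply_of_im_nonpos hw', ofComplex_apply_of_im_nonpos hw0]

/-- `D` preserves vanishing at `i∞` for periodic holomorphic functions. -/
theorem D_isZeroAtImInfty {G : ℍ → ℂ} {h : ℝ} (hh : 0 < h) (hG : MDiff G)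
    (hper : Function.Periodic (G ∘ ofComplex) h) (hzero : IsZeroAtImInfty G) :
    IsZeroAtImInfty (D G) := by
  have hbdd : IsBoundedAtImInfty G := hzero.boundedAtFilter
  set Φ := cuspFunction h G with hΦ
  have hΦdiff : DifferentiableOn ℂ Φ (Metric.ball 0 1) :=
    differentiableOn_cuspFunction_ball hh hper hG hbdd
  have hGeq : G = fun τ : ℍ => Φ (Function.Periodic.qParam h τ) :=
    funext fun τ => (eq_cuspFunction τ hh.ne' hper).symm
  have hqball : ∀ z : ℂ, 0 < z.im → Function.Periodic.qParam h z ∈ Metric.ball (0 : ℂ) 1 := by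
    intro z hz
    rw [mem_ball_zero_iff]
    exact Function.Periodic.norm_qParam_lt_one hh hz
  have hDG : D G = fun τ : ℍ => (deriv Φ (Function.Periodic.qParam h τ) *
      Function.Periodic.qParam h τ) * (h : ℂ)⁻¹ := by
    funext τ
    have hτ : 0 < (τ : ℂ).im := τ.im_pos
    have hd : HasDerivAt Φ (deriv Φ (Function.Periodic.qParam h (τ : ℂ)))
        (Function.Periodic.qParam h (τ : ℂ)) :=
      (hΦdiff.differentiableAt (Metric.isOpen_ball.mem_nhds (hqball _ hτ))).hasDerivAt
    have h1 := hasDerivAt_comp_qParam_ofComplex h hτ hd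
    rw [← hGeq] at h1
    unfold normalizedDerivOfComplex
    rw [h1.deriv]
    have hpi : (2 * (Real.pi : ℂ) * I) ≠ 0 := two_pi_I_ne_zero
    have hh' : (h : ℂ) ≠ 0 := by exact_mod_cast hh.ne'
    field_simp
  have hcont : ContinuousAt (deriv Φ) 0 :=
    ((hΦdiff.deriv Metric.isOpen_ball).differentiableAt
      (Metric.ball_mem_nhds 0 one_pos)).continuousAt
  have hq := qParam_tendsto_atImInfty hh
  have h1 : Tendsto (fun τ : ℍ => deriv Φ (Function.Periodic.qParam h τ)) atImInfty
      (𝓝 (deriv Φ 0)) := hcont.tendsto.comp hq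
  have h2 := (h1.mul hq).mul_const ((h : ℂ)⁻¹)
  rw [mul_zero, zero_mul] at h2
  rw [hDG]
  exact h2

/-- The class of holomorphic, `h`-periodic functions on `ℍ` vanishing at `i∞`. -/
def IsCuspidalPeriodic (h : ℝ) (G : ℍ → ℂ) : Prop :=
  MDiff G ∧ Function.Periodic (G ∘ ofComplex) h ∧ IsZeroAtImInfty G

theorem IsCuspidalPeriodic.D {h : ℝ} {G : ℍ → ℂ} (hh : 0 < h) (hG : IsCuspidalPeriodic h G) :
    IsCuspidalPeriodic h (D G) :=
  ⟨normalizedDerivOfComplex_mdifferentiable hG.1, D_periodic hG.2.1,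
    D_isZeroAtImInfty hh hG.1 hG.2.1 hG.2.2⟩

theorem IsCuspidalPeriodic.iterate_D {h : ℝ} {G : ℍ → ℂ} (hh : 0 < h)
    (hG : IsCuspidalPeriodic h G) (m : ℕ) : IsCuspidalPeriodic h (D^[m] G) := by
  induction m with
  | zero => exact hG
  | succ m ih =>
    rw [Function.iterate_succ_apply']
    exact ih.D hh

theorem isCuspidalPeriodic_zero (h : ℝ) : IsCuspidalPeriodic h 0 :=
  ⟨mdifferentiable_const, fun _ => rfl, tendsto_const_nhds⟩

theorem IsCuspidalPeriodic.add {h : ℝ} {G₁ G₂ : ℍ → ℂ} (h₁ : IsCuspidalPeriodic h G₁)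
    (h₂ : IsCuspidalPeriodic h G₂) : IsCuspidalPeriodic h (G₁ + G₂) := by
  refine ⟨h₁.1.add h₂.1, fun w => ?_, ?_⟩
  · have e1 := h₁.2.1 w
    have e2 := h₂.2.1 w
    simp only [Function.comp_apply, Pi.add_apply] at e1 e2 ⊢
    rw [e1, e2]
  · have := Filter.Tendsto.add h₁.2.2 h₂.2.2
    rw [add_zero] at this
    exact this

theorem IsCuspidalPeriodic.smul {h : ℝ} {G : ℍ → ℂ} (c : ℂ) (hG : IsCuspidalPeriodic h G) :
    IsCuspidalPeriodic h (c • G) := by
  refine ⟨hG.1.const_smul c, fun w => ?_, ?_⟩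
  · have e1 := hG.2.1 w
    simp only [Function.comp_apply, Pi.smul_apply] at e1 ⊢
    rw [e1]
  · have := Filter.Tendsto.const_smul hG.2.2 c
    rw [smul_zero] at this
    exact this

theorem IsCuspidalPeriodic.neg {h : ℝ} {G : ℍ → ℂ} (hG : IsCuspidalPeriodic h G) :
    IsCuspidalPeriodic h (-G) := by
  have := hG.smul (-1)
  simpa using this

theorem IsCuspidalPeriodic.sub {h : ℝ} {G₁ G₂ : ℍ → ℂ} (h₁ : IsCuspidalPeriodic h G₁)
    (h₂ : IsCuspidalPeriodic h G₂) : IsCuspidalPeriodic h (G₁ - G₂) := by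
  rw [sub_eq_add_neg]
  exact h₁.add h₂.neg

theorem IsCuspidalPeriodic.sum {h : ℝ} {ι : Type*} (s : Finset ι) {G : ι → ℍ → ℂ}
    (hG : ∀ i ∈ s, IsCuspidalPeriodic h (G i)) : IsCuspidalPeriodic h (∑ i ∈ s, G i) := by
  classical
  induction s using Finset.induction_on with
  | empty => simpa using isCuspidalPeriodic_zero h
  | insert a s ha ih =>
    rw [Finset.sum_insert ha]
    exact (hG a (Finset.mem_insert_self a s)).add
      (ih fun i hi => hG i (Finset.mem_insert_of_mem hi))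

/-- Iterated antiderivative: existence. -/
theorem exists_iterated_antideriv (m : ℕ) {φ : ℍ → ℂ} {h : ℝ} (hh : 0 < h) (hφ : MDiff φ)
    (hper : Function.Periodic (φ ∘ ofComplex) h) (hzero : IsZeroAtImInfty φ) :
    ∃ G : ℍ → ℂ, MDiff G ∧ Function.Periodic (G ∘ ofComplex) h ∧ IsZeroAtImInfty G ∧
      D^[m] G = φ := by
  induction m generalizing φ with
  | zero => exact ⟨φ, hφ, hper, hzero, rfl⟩
  | succ m ih =>
    obtain ⟨G₁, hG₁, hper₁, hzero₁, hD₁⟩ := ih hφ hper hzero
    obtain ⟨G, hG, hperG, hzeroG, hDG⟩ := exists_antideriv hh hG₁ hper₁ hzero₁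
    refine ⟨G, hG, hperG, hzeroG, ?_⟩
    rw [Function.iterate_succ_apply, hDG, hD₁]

/-- Iterated antiderivative: uniqueness within the class of cuspidal periodic functions. -/
theorem iterated_antideriv_unique (m : ℕ) {h : ℝ} (hh : 0 < h) {G₁ G₂ : ℍ → ℂ}
    (h₁ : IsCuspidalPeriodic h G₁) (h₂ : IsCuspidalPeriodic h G₂)
    (hD : D^[m] G₁ = D^[m] G₂) : G₁ = G₂ := by
  induction m generalizing G₁ G₂ with
  | zero => exact hD
  | succ m ih =>
    rw [Function.iterate_succ_apply, Function.iterate_succ_apply] at hD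
    have := ih (h₁.D hh) (h₂.D hh) hD
    exact antideriv_unique h₁.1 h₂.1 h₁.2.2 h₂.2.2 this

end Fermat.Agent.S22_helper8
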