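import Fermat.Agent.S22_helper8.Antideriv
import Fermat.Agent.S22_helper15.Bol
import Fermat.Agent.S22_helper71.PolyFun
import Fermat.Agent.S22_helper94.CocycleLattice
import Fermat.Prelude.Thm_CongruenceSubgroup_one_mem_strictPeriods_Gamma0

set_option autoImplicit false

open UpperHalfPlane hiding I
open ModularForm Derivative Complex Filter Topology Polynomial
open scoped MatrixGroups ModularForm Manifold

namespace Fermat.Agent.S22_helper8

open Fermat.Agent.S22_helper15 Fermat.Agent.S22_helper71 Fermat.Agent.S22_helper94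

variable {N : ℕ} [NeZero N] {m : ℕ}

/-- A cusp form on `Γ₀(N)` is holomorphic, `1`-periodic and vanishes at `i∞`. -/
theorem isCuspidalPeriodic_cuspForm {k : ℤ} (f : CuspForm (CongruenceSubgroup.Gamma0 N) k) :
    IsCuspidalPeriodic 1 (f : ℍ → ℂ) :=
  ⟨CuspFormClass.holo f,
    SlashInvariantFormClass.periodic_comp_ofComplex f
      (CongruenceSubgroup.one_mem_strictPeriods_Gamma0 N),
    CuspFormClass.zero_at_infty f⟩

theorem exists_eichler (m : ℕ) (f : CuspForm (CongruenceSubgroup.Gamma0 N) ((1 : ℤ) + m)) :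
    ∃ E : ℍ → ℂ, IsCuspidalPeriodic 1 E ∧ D^[m] E = (f : ℍ → ℂ) := by
  obtain ⟨hf, hper, hzero⟩ := isCuspidalPeriodic_cuspForm f
  obtain ⟨G, hG, hGper, hGzero, hD⟩ := exists_iterated_antideriv m one_pos hf hper hzero
  exact ⟨G, ⟨hG, hGper, hGzero⟩, hD⟩

/-- The Eichler integral of a cusp form of weight `1 + m`: the `m`-fold `D`-antiderivative which
is holomorphic, `1`-periodic and vanishes at `i∞`. -/
noncomputable def eichler (f : CuspForm (CongruenceSubgroup.Gamma0 N) ((1 : ℤ) + m)) : ℍ → ℂ :=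
  (exists_eichler m f).choose

theorem eichler_isCuspidalPeriodic (f : CuspForm (CongruenceSubgroup.Gamma0 N) ((1 : ℤ) + m)) :
    IsCuspidalPeriodic 1 (eichler f) :=
  (exists_eichler m f).choose_spec.1

theorem eichler_mdiff (f : CuspForm (CongruenceSubgroup.Gamma0 N) ((1 : ℤ) + m)) :
    MDiff (eichler f) :=
  (eichler_isCuspidalPeriodic f).1

theorem eichler_isZeroAtImInfty (f : CuspForm (CongruenceSubgroup.Gamma0 N) ((1 : ℤ) + m)) :
    IsZeroAtImInfty (eichler f) :=
  (eichler_isCuspidalPeriodic f).2.2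

theorem iterate_D_eichler (f : CuspForm (CongruenceSubgroup.Gamma0 N) ((1 : ℤ) + m)) :
    D^[m] (eichler f) = (f : ℍ → ℂ) :=
  (exists_eichler m f).choose_spec.2

/-- Characterisation of the Eichler integral. -/
theorem eq_eichler (f : CuspForm (CongruenceSubgroup.Gamma0 N) ((1 : ℤ) + m)) {E : ℍ → ℂ}
    (hE : IsCuspidalPeriodic 1 E) (hD : D^[m] E = (f : ℍ → ℂ)) : E = eichler f :=
  iterated_antideriv_unique m one_pos hE (eichler_isCuspidalPeriodic f)
    (hD.trans (iterate_D_eichler f).symm)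

theorem eichler_add (f g : CuspForm (CongruenceSubgroup.Gamma0 N) ((1 : ℤ) + m)) :
    eichler (f + g) = eichler f + eichler g := by
  symm
  apply eq_eichler
  · exact (eichler_isCuspidalPeriodic f).add (eichler_isCuspidalPeriodic g)
  · rw [iterate_D_add m (eichler_mdiff f) (eichler_mdiff g), iterate_D_eichler,
      iterate_D_eichler]
    rfl

theorem eichler_smul (c : ℂ) (f : CuspForm (CongruenceSubgroup.Gamma0 N) ((1 : ℤ) + m)) :
    eichler (c • f) = c • eichler f := by
  symm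
  apply eq_eichler
  · exact (eichler_isCuspidalPeriodic f).smul c
  · rw [iterate_D_smul m c (eichler_mdiff f), iterate_D_eichler]
    rfl


/-- The period function `E_f ∣[1-m] γ - E_f`. -/
noncomputable def periodFun (γ : SL(2, ℤ))
    (f : CuspForm (CongruenceSubgroup.Gamma0 N) ((1 : ℤ) + m)) : ℍ → ℂ :=
  eichler f ∣[(1 : ℤ) - m] γ - eichler f

theorem periodFun_mdiff (γ : SL(2, ℤ))
    (f : CuspForm (CongruenceSubgroup.Gamma0 N) ((1 : ℤ) + m)) : MDiff (periodFun γ f) := by
  unfold periodFun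
  rw [ModularForm.SL_slash]
  exact ((eichler_mdiff f).slash _ _).sub (eichler_mdiff f)

omit [NeZero N] in
theorem slash_eq_self_of_mem_Gamma0 {γ : SL(2, ℤ)} (hγ : γ ∈ CongruenceSubgroup.Gamma0 N)
    {k : ℤ} (f : CuspForm (CongruenceSubgroup.Gamma0 N) k) :
    (f : ℍ → ℂ) ∣[k] γ = (f : ℍ → ℂ) := by
  rw [ModularForm.SL_slash]
  exact SlashInvariantFormClass.slash_action_eq f _ ⟨γ, hγ, rfl⟩

theorem iterate_D_periodFun {γ : SL(2, ℤ)} (hγ : γ ∈ CongruenceSubgroup.Gamma0 N)
    (f : CuspForm (CongruenceSubgroup.Gamma0 N) ((1 : ℤ) + m)) :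
    D^[m] (periodFun γ f) = 0 := by
  unfold periodFun
  have h1 : MDiff (eichler f ∣[(1 : ℤ) - m] γ) := by
    rw [ModularForm.SL_slash]; exact (eichler_mdiff f).slash _ _
  rw [iterate_D_sub m h1 (eichler_mdiff f), bol_SL m (eichler_mdiff f) γ, iterate_D_eichler,
    slash_eq_self_of_mem_Gamma0 hγ, sub_self]

theorem exists_periodPoly {γ : SL(2, ℤ)} (hγ : γ ∈ CongruenceSubgroup.Gamma0 N)
    (f : CuspForm (CongruenceSubgroup.Gamma0 N) ((1 : ℤ) + m)) :
    ∃ P : ℂ[X], P.degree < m ∧ periodFun γ f = polyFun P :=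
  exists_poly_of_iterate_D_eq_zero m (periodFun_mdiff γ f) (iterate_D_periodFun hγ f)

/-- The period polynomial of `f` at `γ ∈ Γ₀(N)`, as a bare function. -/
noncomputable def periodPolyAux (γ : CongruenceSubgroup.Gamma0 N)
    (f : CuspForm (CongruenceSubgroup.Gamma0 N) ((1 : ℤ) + m)) : ℂ[X] :=
  (exists_periodPoly γ.2 f).choose

theorem degree_periodPolyAux_lt (γ : CongruenceSubgroup.Gamma0 N)
    (f : CuspForm (CongruenceSubgroup.Gamma0 N) ((1 : ℤ) + m)) :
    (periodPolyAux γ f).degree < m :=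
  (exists_periodPoly γ.2 f).choose_spec.1

theorem polyFun_periodPolyAux (γ : CongruenceSubgroup.Gamma0 N)
    (f : CuspForm (CongruenceSubgroup.Gamma0 N) ((1 : ℤ) + m)) :
    polyFun (periodPolyAux γ f) = periodFun (γ : SL(2, ℤ)) f :=
  (exists_periodPoly γ.2 f).choose_spec.2.symm

theorem periodFun_add (γ : SL(2, ℤ))
    (f g : CuspForm (CongruenceSubgroup.Gamma0 N) ((1 : ℤ) + m)) :
    periodFun γ (f + g) = periodFun γ f + periodFun γ g := by
  unfold periodFun
  rw [eichler_add, SlashAction.add_slash]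
  abel

theorem periodFun_smul (γ : SL(2, ℤ)) (c : ℂ)
    (f : CuspForm (CongruenceSubgroup.Gamma0 N) ((1 : ℤ) + m)) :
    periodFun γ (c • f) = c • periodFun γ f := by
  unfold periodFun
  rw [eichler_smul, ModularForm.SL_smul_slash, smul_sub]

/-- The period polynomial, as a `ℂ`-linear map. -/
noncomputable def periodPoly (γ : CongruenceSubgroup.Gamma0 N) :
    CuspForm (CongruenceSubgroup.Gamma0 N) ((1 : ℤ) + m) →ₗ[ℂ] ℂ[X] where
  toFun f := periodPolyAux γ f
  map_add' f g := by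
    apply polyFun_injective
    rw [polyFun_add, polyFun_periodPolyAux, polyFun_periodPolyAux, polyFun_periodPolyAux,
      periodFun_add]
  map_smul' c f := by
    apply polyFun_injective
    rw [RingHom.id_apply, polyFun_smul, polyFun_periodPolyAux, polyFun_periodPolyAux,
      periodFun_smul]

theorem polyFun_periodPoly (γ : CongruenceSubgroup.Gamma0 N)
    (f : CuspForm (CongruenceSubgroup.Gamma0 N) ((1 : ℤ) + m)) :
    polyFun (periodPoly γ f) = eichler f ∣[(1 : ℤ) - m] (γ : SL(2, ℤ)) - eichler f :=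
  polyFun_periodPolyAux γ f

theorem degree_periodPoly_lt (γ : CongruenceSubgroup.Gamma0 N)
    (f : CuspForm (CongruenceSubgroup.Gamma0 N) ((1 : ℤ) + m)) :
    (periodPoly γ f).degree < m :=
  degree_periodPolyAux_lt γ f

theorem natDegree_periodPoly_le (γ : CongruenceSubgroup.Gamma0 N)
    (f : CuspForm (CongruenceSubgroup.Gamma0 N) ((1 : ℤ) + m)) :
    (periodPoly γ f).natDegree ≤ m - 1 := by
  by_cases h0 : periodPoly γ f = 0
  · rw [h0]; simp
  · have := degree_periodPoly_lt γ f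
    rw [Polynomial.degree_eq_natDegree h0] at this
    have : (periodPoly γ f).natDegree < m := by exact_mod_cast this
    omega


/-- The integer matrix of an element of `Γ₀(N)`. -/
def gammaMatrix (γ : CongruenceSubgroup.Gamma0 N) : Matrix (Fin 2) (Fin 2) ℤ :=
  ((γ : SL(2, ℤ)) : Matrix (Fin 2) (Fin 2) ℤ)

/-- Slash of a polynomial function by an element of `SL(2, ℤ)`, in weight `1 - m`. -/
theorem polyFun_slash_SL (hm : 1 ≤ m) (δ : SL(2, ℤ)) {P : ℂ[X]} (hP : P.natDegree ≤ m - 1) :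
    polyFun P ∣[(1 : ℤ) - m] δ =
      polyFun (polySlash (m - 1) ((δ 0 0 : ℤ) : ℂ) ((δ 0 1 : ℤ) : ℂ) ((δ 1 0 : ℤ) : ℂ)
        ((δ 1 1 : ℤ) : ℂ) P) := by
  have hw : (1 : ℤ) - m = -((m - 1 : ℕ) : ℤ) := by
    rw [Nat.cast_sub hm]; push_cast; ring
  have hdet : (δ : GL (Fin 2) ℝ).val.det = 1 := by
    rw [← Matrix.GeneralLinearGroup.val_det_apply]; simp
  have h := polyFun_slash (m - 1) (δ : GL (Fin 2) ℝ) (by rw [hdet]; exact one_pos) hP
  rw [hdet] at h
  rw [ModularForm.SL_slash, hw]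
  unfold polyFun
  simpa using h

theorem periodPoly_one (f : CuspForm (CongruenceSubgroup.Gamma0 N) ((1 : ℤ) + m)) :
    periodPoly (1 : CongruenceSubgroup.Gamma0 N) f = 0 := by
  apply polyFun_injective
  rw [polyFun_periodPoly, polyFun_zero]
  simp

theorem periodPoly_mul (hm : 1 ≤ m) (γ δ : CongruenceSubgroup.Gamma0 N)
    (f : CuspForm (CongruenceSubgroup.Gamma0 N) ((1 : ℤ) + m)) :
    periodPoly (γ * δ) f =
      polySlash (m - 1) ((gammaMatrix δ 0 0 : ℤ) : ℂ) ((gammaMatrix δ 0 1 : ℤ) : ℂ)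
        ((gammaMatrix δ 1 0 : ℤ) : ℂ) ((gammaMatrix δ 1 1 : ℤ) : ℂ) (periodPoly γ f) +
      periodPoly δ f := by
  apply polyFun_injective
  have h1 := polyFun_slash_SL hm (δ : SL(2, ℤ)) (natDegree_periodPoly_le γ f)
  rw [polyFun_add, polyFun_periodPoly, polyFun_periodPoly]
  unfold gammaMatrix
  rw [← h1, polyFun_periodPoly, sub_eq_add_neg (eichler f ∣[(1 : ℤ) - m] (γ : SL(2, ℤ))),
    SlashAction.add_slash, SlashAction.neg_slash, Subgroup.coe_mul, SlashAction.slash_mul]
  abel

theorem isPolyCocycle_periodPoly (hm : 1 ≤ m) :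
    IsPolyCocycle (m - 1) (gammaMatrix (N := N))
      (periodPoly (N := N) (m := m)) where
  natDegree_le := natDegree_periodPoly_le
  map_one := LinearMap.ext periodPoly_one
  map_mul := periodPoly_mul hm

/-- Separation, reduced to invariance of the Eichler integral: if all period polynomials of `f`
vanish then `E_f` is invariant under `Γ₀(N)` in weight `1 - m`. -/
theorem eichler_slash_eq_self_of_periodPoly_eq_zero
    (f : CuspForm (CongruenceSubgroup.Gamma0 N) ((1 : ℤ) + m))
    (h : ∀ γ : CongruenceSubgroup.Gamma0 N, periodPoly γ f = 0)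
    (γ : CongruenceSubgroup.Gamma0 N) :
    eichler f ∣[(1 : ℤ) - m] (γ : SL(2, ℤ)) = eichler f := by
  have := polyFun_periodPoly γ f
  rw [h γ, polyFun_zero] at this
  exact (sub_eq_zero.mp this.symm)

end Fermat.Agent.S22_helper8
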